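import Fermat.Agent.JAC.ConstExtPic
import Fermat.Agent.JAC.Periods
import Fermat.Agent.JAC.TorsionCount

/-!
# Divisibility of `Pic⁰` descends from `ℂ`

A divisor class with a multiple defined over an algebraically closed subfield is defined over it
(`ConstExt.mem_range_of_nsmul_mem_range`), so divisibility over `ℂ` gives it over `ℚ̄`.
-/

set_option autoImplicit false

noncomputable section

open AlgebraicCurve

namespace Fermat.RED

open Fermat.FF Fermat.JAC Fermat.JAC.ConstExt

/-- `Pic⁰` is divisible over an algebraically closed field of constants inside `ℂ`. -/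
theorem exists_nsmul_eq_of_constExt {k F₀ F : Type*} [Field k] [Field F₀] [Field F] [Algebra k ℂ]
    [Algebra k F₀] [Algebra ℂ F] [Algebra F₀ F] [IsConstExt k ℂ F₀ F] [IsAlgClosed k] [CharZero k]
    [IsFunctionField k F₀] [IsFunctionField ℂ F] {n : ℕ} (hn : n ≠ 0) (x : Pic0 k F₀) :
    ∃ y, n • y = x := by
  have := finite_torsion (K := ℂ) (F := F) n hn
  obtain ⟨y, hy⟩ := JAC.exists_nsmul_eq n hn (pic0Ext k ℂ F₀ F x)
  obtain ⟨y₀, rfl⟩ := mem_range_of_nsmul_mem_range (k := k) (F₀ := F₀) n ⟨x, hy.symm⟩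
  exact ⟨y₀, pic0Ext_injective (by rw [map_nsmul, hy])⟩

end Fermat.RED
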