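import Fermat.Agent.RED.Reduction.Basic
import Fermat.Agent.RED.Model.X0Normal
import Fermat.Prelude.Def_ModularCurve_ReductionModL
import Fermat.Agent.GR.RatInstances

/-!
# Reduction of `J₀(N)` modulo `ℓ ∤ N`

The series reduction of `X₀(N)` exists at every place over a prime `ℓ ∤ N`, the inputs of the
Prelude's reduction map hold, and reduction is injective on torsion prime to `ℓ` (S18).
-/

set_option autoImplicit false

noncomputable section

open ModularCurve AlgebraicCurve

namespace Fermat.RED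

/-- `X₀(N)` has a series reduction wherever `N` is invertible in the residue field. -/
theorem exists_seriesReduction_X0 {L : Type*} [Field L] [IsAlgClosed L] [CharZero L] [Algebra ℚ L]
    (φ : L →+* ℂ) {A : ValuationSubring L} {k : Type*} [Field k] [IsAlgClosed k] {π : A →+* k}
    (hπ : Function.Surjective π) {N : ℕ} [NeZero N] (hN : (N : k) ≠ 0) :
    ∃ r, IsSeriesReduction A π (laurentBaseChange L (modularFunctionFieldFull N))
      (modularFunctionFieldFullC k N) r := by
  obtain ⟨hn, hn'⟩ := Model.normal_X0 (L := L) (A := A) φ hπ hN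
  rw [Model.fullC_eq_baseChange]
  exact exists_seriesReduction (Model.goodModel_X0 hπ hN) hn hn' (Model.specField_X0 hπ hN)

/-- `ℚ̄` embeds in `ℂ`. -/
theorem exists_embedding_complex : Nonempty (AlgebraicClosure ℚ →+* ℂ) :=
  ⟨(IsAlgClosed.lift (R := ℚ) (S := AlgebraicClosure ℚ) (M := ℂ)).toRingHom⟩

/-- `X₀(N)` has a series reduction at every place over a prime `ℓ ∤ N`. -/
theorem exists_seriesReduction_modL (N : ℕ) [NeZero N] {ℓ : ℕ} (hℓ : ℓ.Prime) (hℓN : ¬ ℓ ∣ N)
    (A : ValuationSubring (AlgebraicClosure ℚ)) (hA : A.LiesOverPrime ℓ) :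
    ∃ r, IsSeriesReduction A (IsLocalRing.residue A) (modularFunctionFieldBar N)
      (modularFunctionFieldFullC (IsLocalRing.ResidueField A) N) r := by
  have := Model.isAlgClosed_residue A
  obtain ⟨φ⟩ := exists_embedding_complex
  exact exists_seriesReduction_X0 φ IsLocalRing.residue_surjective
    (Model.natCast_ne_zero_residue A hℓ hA hℓN)

/-- The inputs of reduction mod `ℓ` hold at every prime not dividing the level. -/
theorem reductionInputsModL (N : ℕ) [NeZero N] {ℓ : ℕ} (hℓ : ℓ.Prime) (hℓN : ¬ ℓ ∣ N)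
    (A : ValuationSubring (AlgebraicClosure ℚ)) (hA : A.LiesOverPrime ℓ) :
    ReductionInputsModL A N :=
  let ⟨r, hr⟩ := exists_seriesReduction_modL N hℓ hℓN A hA
  ⟨r, ⟨hr.deg_eq, hr.compat⟩, hr.gen⟩

/-- Reduction mod `ℓ` is injective on torsion of order prime to `ℓ`. -/
theorem eq_zero_of_reductionModL_eq_zero (N : ℕ) [NeZero N] {ℓ : ℕ} (hℓ : ℓ.Prime)
    (hℓN : ¬ ℓ ∣ N) (A : ValuationSubring (AlgebraicClosure ℚ)) (hA : A.LiesOverPrime ℓ)
    (m : ℕ) (hm : ¬ ℓ ∣ m) (z : JZero N) (hmz : m • z = 0) (hz : reductionModL A N z = 0) :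
    z = 0 := by
  obtain ⟨r, hr⟩ := exists_seriesReduction_modL N hℓ hℓN A hA
  have h := reductionInputsModL N hℓ hℓN A hA
  obtain ⟨D, rfl⟩ := Pic0.mk_surjective z
  rw [reductionModL_mk h, Pic0.mk, QuotientAddGroup.eq_zero_iff, AddSubgroup.mem_addSubgroupOf,
    coe_reductionDegZeroAlong] at hz
  rw [Pic0.mk, ← QuotientAddGroup.mk_nsmul, QuotientAddGroup.eq_zero_iff,
    AddSubgroup.mem_addSubgroupOf, AddSubgroupClass.coe_nsmul] at hmz
  rw [Pic0.mk, QuotientAddGroup.eq_zero_iff, AddSubgroup.mem_addSubgroupOf]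
  have hm0 : m ≠ 0 := fun h0 => hm (h0 ▸ dvd_zero ℓ)
  rw [hr.mapDomain_eq_of_torsion (isPlaceReductionModL_placeReductionModL h).2 hm0 hmz] at hz
  exact hr.torsion m (Model.natCast_ne_zero_residue A hℓ hA hm) D
    (Divisor.mem_degZero.mp D.2) hmz hz

end Fermat.RED
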