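import Fermat.Agent.RED.Reduction.Basic
import Fermat.Prelude.Def_AlgebraicCurve_BaseChangeGalois

/-!
# Symmetries and correspondences commute with reduction

When `Pic⁰` is divisible, a semilinear automorphism or a correspondence is determined on degree
zero divisors by what it does to integral expansions; hence the congruence shape `g • e + ℓ g⁻¹`.
-/

set_option autoImplicit false

attribute [local instance 10000] SubalgebraClass.toAlgebra HahnSeries.powerSeriesAlgebra

noncomputable section

open ModularCurve AlgebraicCurve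

namespace Fermat.RED

/-- Multiplication by every nonzero natural number is surjective on `Pic⁰`. -/
def PicDivisible (K F : Type*) [Field K] [Field F] [Algebra K F] : Prop :=
  ∀ n : ℕ, n ≠ 0 → ∀ x : Pic0 K F, ∃ y : Pic0 K F, n • y = x

variable {L : Type*} [Field L] {A : ValuationSubring L}
variable {k : Type*} [Field k] {π : A →+* k}
variable {S : IntermediateField L (LaurentSeries L)} {T : IntermediateField k (LaurentSeries k)}
variable {r : Place L S → Place k T}

/-- An automorphism moves the divisor of `f` to that of `s • f`. -/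
theorem divOf_smul' {K F : Type*} [Field K] [Field F] [Algebra K F] (s : SemilinearAut K F)
    {D : Divisor K F} {f : F} (hD : ∀ P, D P = P.ord f) (P : Place K F) :
    (s • D) P = P.ord (s • f) := by
  rw [SemilinearAut.divisor_smul_apply, hD]
  conv_rhs => rw [← smul_inv_smul s P]
  exact (SemilinearAut.ord_smul s (s⁻¹ • P) f).symm

/-- With divisible `Pic⁰`, killing principal divisors forces killing all degree-zero divisors. -/
theorem map_eq_zero_of_picDivisible (hdiv : PicDivisible L S) (δ : Divisor L S →+ Divisor k T)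
    (h : ∀ D ∈ Divisor.principal (K := L) (F := S), δ D = 0)
    {D : Divisor L S} (hD : Divisor.degree D = 0) : δ D = 0 := by
  refine Finsupp.ext fun Q => ?_
  rw [Finsupp.zero_apply]
  set a := δ D Q
  suffices ∀ n : ℕ, n ≠ 0 → (n : ℤ) ∣ a from
    Int.eq_zero_of_dvd_of_natAbs_lt_natAbs (this (a.natAbs + 1) (Nat.succ_ne_zero _))
      (by rw [Int.natAbs_natCast]; exact Nat.lt_succ_self _)
  intro n hn
  obtain ⟨y, hy⟩ := hdiv n hn (Pic0.mk ⟨D, Divisor.mem_degZero.mpr hD⟩)
  obtain ⟨E, rfl⟩ := Pic0.mk_surjective y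
  rw [Pic0.mk, Pic0.mk, ← QuotientAddGroup.mk_nsmul, QuotientAddGroup.eq,
    AddSubgroup.mem_addSubgroupOf] at hy
  have h0 := h _ hy
  simp only [AddSubgroup.coe_add, AddSubgroup.coe_neg, AddSubgroupClass.coe_nsmul, map_add,
    map_neg, map_nsmul, neg_add_eq_zero] at h0
  refine ⟨δ (E : Divisor L S) Q, ?_⟩
  change δ D Q = _
  rw [← h0, Finsupp.smul_apply, nsmul_eq_mul]

namespace IsSeriesReduction

/-- With divisible `Pic⁰`, killing integral divisors forces killing all degree-zero divisors. -/
theorem map_eq_zero_of_degree_zero (hr : IsSeriesReduction A π S T r) (hdiv : PicDivisible L S)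
    (δ : Divisor L S →+ Divisor k T) (h : ∀ D ∈ integralDivisors A π S T, δ D = 0)
    {D : Divisor L S} (hD : Divisor.degree D = 0) : δ D = 0 :=
  map_eq_zero_of_picDivisible hdiv δ (fun _ => hr.map_eq_zero_of_principal δ h) hD

variable (A π S T) in
/-- `s` acts on integral expansions as `g` does on their reductions. -/
def Intertwines (s : SemilinearAut L S) (g : SemilinearAut k T) : Prop :=
  ∀ (f : S) (y : LaurentSeries A) (z : T), (f : LaurentSeries L) = coeffMap A.subtype y →
    (z : LaurentSeries k) = coeffMap π y →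
      ∃ y' : LaurentSeries A, ((s • f : S) : LaurentSeries L) = coeffMap A.subtype y' ∧
        ((g • z : T) : LaurentSeries k) = coeffMap π y'

/-- The defining property of `r`, for a function and a nonzero element with a common lift. -/
theorem compat_of_eq (hr : IsSeriesReduction A π S T r) {f : S} {z : T} {y : LaurentSeries A}
    (hy : (f : LaurentSeries L) = coeffMap A.subtype y)
    (hyk : (z : LaurentSeries k) = coeffMap π y) (hz : z ≠ 0) {D : Divisor L S}
    (hD : ∀ P, D P = P.ord f) (Q : Place k T) : Finsupp.mapDomain r D Q = Q.ord z := by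
  obtain ⟨f, hf⟩ := f
  obtain ⟨z, hzT⟩ := z
  subst hy hyk
  exact hr.compat y hf hzT (fun h0 => hz (Subtype.ext h0)) D hD Q

/-- If `s • f` reduces to `g • z` for `f` reducing to `z`, reduction commutes with the symmetries
on the divisor of `f`. -/
theorem mapDomain_smul_of_lift (hr : IsSeriesReduction A π S T r) {s : SemilinearAut L S}
    {g : SemilinearAut k T} {f : S} {z : T} {y' : LaurentSeries A} {D : Divisor L S}
    (h1 : ((s • f : S) : LaurentSeries L) = coeffMap A.subtype y')
    (h2 : ((g • z : T) : LaurentSeries k) = coeffMap π y') (hz : z ≠ 0)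
    (hD : ∀ P, D P = P.ord f) (hDr : ∀ Q, Finsupp.mapDomain r D Q = Q.ord z) :
    Finsupp.mapDomain r (s • D) = g • Finsupp.mapDomain r D := by
  refine Finsupp.ext fun Q => ?_
  rw [divOf_smul' g hDr Q]
  exact hr.compat_of_eq h1 h2 ((smul_ne_zero_iff_ne g).mpr hz) (divOf_smul' s hD) Q

/-- The same for a correspondence sending `f` to `f'` when `f'` reduces to
`(g⁻¹ z) ^ ℓ * g (e z)`. -/
theorem mapDomain_correspondence_of_lift (hr : IsSeriesReduction A π S T r)
    {η : Divisor L S →+ Divisor L S} {ℓ : ℕ} {g e : SemilinearAut k T} {f' : S} {z : T}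
    {y' : LaurentSeries A} {D : Divisor L S}
    (h1 : (f' : LaurentSeries L) = coeffMap A.subtype y')
    (h2 : ((((g⁻¹ • z) ^ ℓ * (g • e • z) : T)) : LaurentSeries k) = coeffMap π y') (hz : z ≠ 0)
    (hη : ∀ P, η D P = P.ord f') (hDr : ∀ Q, Finsupp.mapDomain r D Q = Q.ord z) :
    Finsupp.mapDomain r (η D) =
      ℓ • (g⁻¹ • Finsupp.mapDomain r D) + g • e • Finsupp.mapDomain r D := by
  have hz1 : g⁻¹ • z ≠ 0 := (smul_ne_zero_iff_ne _).mpr hz
  have hz2 : g • e • z ≠ 0 := (smul_ne_zero_iff_ne _).mpr ((smul_ne_zero_iff_ne _).mpr hz)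
  refine Finsupp.ext fun Q => ?_
  rw [Finsupp.add_apply, Finsupp.smul_apply, divOf_smul' g⁻¹ hDr Q,
    divOf_smul' g (divOf_smul' e hDr) Q,
    hr.compat_of_eq h1 h2 (mul_ne_zero (pow_ne_zero _ hz1) hz2) hη Q,
    Q.ord_mul (pow_ne_zero _ hz1) hz2, FF.ord_pow, nsmul_eq_mul]

/-- Intertwined automorphisms commute with reduction on divisors of degree zero. -/
theorem mapDomain_smul (hr : IsSeriesReduction A π S T r) (hdiv : PicDivisible L S)
    {s : SemilinearAut L S} {g : SemilinearAut k T} (hsg : Intertwines A π S T s g)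
    {D : Divisor L S} (hD : Divisor.degree D = 0) :
    Finsupp.mapDomain r (s • D) = g • Finsupp.mapDomain r D := by
  let δ : Divisor L S →+ Divisor k T :=
    (Finsupp.mapDomain.addMonoidHom r).comp (DistribSMul.toAddMonoidHom _ s) -
      (DistribSMul.toAddMonoidHom _ g).comp (Finsupp.mapDomain.addMonoidHom r)
  refine sub_eq_zero.mp (hr.map_eq_zero_of_degree_zero hdiv δ ?_ hD)
  rintro E ⟨y, hy, hyk, hne, hE⟩
  have hz : (⟨coeffMap π y, hyk⟩ : T) ≠ 0 := fun h0 => hne (congrArg Subtype.val h0)
  obtain ⟨y', h1, h2⟩ := hsg ⟨coeffMap A.subtype y, hy⟩ y ⟨coeffMap π y, hyk⟩ rfl rfl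
  exact sub_eq_zero.mpr (hr.mapDomain_smul_of_lift h1 h2 hz hE (hr.compat y hy hyk hne E hE))

/-- A correspondence given on functions by `N` reduces to `g • e + ℓ g⁻¹` when the reduction of
`N f` is `(g⁻¹ f̄) ^ ℓ * g (e f̄)`. -/
theorem mapDomain_correspondence (hr : IsSeriesReduction A π S T r) (hdiv : PicDivisible L S)
    (η : Divisor L S →+ Divisor L S) (N : S → S) (ℓ : ℕ) (g e : SemilinearAut k T)
    (hη : ∀ (E : Divisor L S) (f : S), f ≠ 0 → (∀ P, E P = P.ord f) → ∀ P, η E P = P.ord (N f))
    (hN : ∀ (f : S) (y : LaurentSeries A) (z : T), (f : LaurentSeries L) = coeffMap A.subtype y →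
      (z : LaurentSeries k) = coeffMap π y → z ≠ 0 →
        ∃ y' : LaurentSeries A, ((N f : S) : LaurentSeries L) = coeffMap A.subtype y' ∧
          ((((g⁻¹ • z) ^ ℓ * (g • e • z) : T)) : LaurentSeries k) = coeffMap π y')
    {D : Divisor L S} (hD : Divisor.degree D = 0) :
    Finsupp.mapDomain r (η D) =
      ℓ • (g⁻¹ • Finsupp.mapDomain r D) + g • e • Finsupp.mapDomain r D := by
  let μ := Finsupp.mapDomain.addMonoidHom (M := ℤ) r
  let δ : Divisor L S →+ Divisor k T :=
    μ.comp η - (ℓ • (DistribSMul.toAddMonoidHom _ g⁻¹).comp μ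
      + (DistribSMul.toAddMonoidHom _ g).comp ((DistribSMul.toAddMonoidHom _ e).comp μ))
  refine sub_eq_zero.mp (hr.map_eq_zero_of_degree_zero hdiv δ ?_ hD)
  rintro E ⟨y, hy, hyk, hne, hE⟩
  set f : S := ⟨coeffMap A.subtype y, hy⟩
  set z : T := ⟨coeffMap π y, hyk⟩
  have hz : z ≠ 0 := fun h0 => hne (congrArg Subtype.val h0)
  have hf : f ≠ 0 := fun h0 => hne (by
    rw [show y = 0 from Model.coeffMap_subtype_injective A
      ((congrArg Subtype.val h0).trans (map_zero (coeffMap A.subtype)).symm), map_zero])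
  obtain ⟨y', h1, h2⟩ := hN f y z rfl rfl hz
  exact sub_eq_zero.mpr (hr.mapDomain_correspondence_of_lift h1 h2 hz (hη E f hf hE)
    (hr.compat y hy hyk hne E hE))

end IsSeriesReduction

end Fermat.RED
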