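import Fermat.Agent.RED.Reduction.Hom

/-!
# Commuting with reduction, tested on a chart

The criteria of `RED/Reduction/Hom` only need to be checked on the elements of one chart of a good
model. Used by `RED/Full/Congruence`.
-/

set_option autoImplicit false

attribute [local instance 10000] SubalgebraClass.toAlgebra HahnSeries.powerSeriesAlgebra

noncomputable section

open ModularCurve AlgebraicCurve

namespace Fermat.RED

open Model

variable {L : Type*} [Field L] {A : ValuationSubring L}
variable {k : Type*} [Field k] {π : A →+* k}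
variable {S : IntermediateField L (LaurentSeries L)}

/-- The expansion of an integral function over `A`. -/
theorem exists_lift_of_int {f : S} (hf : S.val.toRingHom f ∈ intSeries A) :
    ∃ y : LaurentSeries A, (f : LaurentSeries L) = coeffMap A.subtype y ∧
      redF π S.val.toRingHom f = coeffMap π y := by
  obtain ⟨y, hy⟩ := id hf
  refine ⟨y, hy.symm, ?_⟩
  rw [redF_of_mem hf, ← redHom_coeffMap π y ⟨y, rfl⟩]
  exact congrArg _ (Subtype.ext hy.symm)

variable [IsAlgClosed L] [FF.IsFunctionField L S]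

/-- The divisors of chart elements with nonzero reduction generate the principal divisors. -/
theorem principal_le_closure_chart {x : S} {d : ℕ} (h : GoodModel π S.val.toRingHom x d) :
    Divisor.principal (K := L) (F := S) ≤ AddSubgroup.closure
      ((fun f => FF.divOf L f) ''
        {f : S | f ∈ chart A x ∧ redF π S.val.toRingHom f ≠ 0}) := by
  intro D hD
  obtain ⟨f, hf, rfl⟩ := exists_eq_divOf hD
  obtain ⟨P, c, g, hP, hc, hg, ⟨⟨⟩, hg0⟩, e⟩ :=
    h.toPreModel.exists_primitive_family (α := Unit) (fun _ => f) ⟨(), hf⟩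
  have hP0 : ax A x P ≠ 0 := h.toPreModel.ax_ne_zero hP
  have hg' : g () ≠ 0 := fun h0 => hg0 (by rw [h0, redF_zero])
  have hdiv : FF.divOf L f = FF.divOf L (g ()) - FF.divOf L (ax A x P) := by
    refine eq_sub_of_add_eq ?_
    rw [← FF.divOf_mul hf hP0, mul_comm, e (), FF.divOf_mul ((_root_.map_ne_zero _).mpr hc) hg',
      show FF.divOf L (algebraMap L S c) = 0 from Finsupp.ext fun v => by
        rw [FF.divOf_apply, FF.ord_algebraMap, Finsupp.zero_apply], zero_add]
  rw [hdiv]
  exact sub_mem (AddSubgroup.subset_closure ⟨g (), ⟨hg (), hg0⟩, rfl⟩)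
    (AddSubgroup.subset_closure
      ⟨_, ⟨ax_mem_chart x P, h.toPreModel.redF_ax_ne_zero hP⟩, rfl⟩)

variable {T : IntermediateField k (LaurentSeries k)} {r : Place L S → Place k T}

namespace IsSeriesReduction

/-- With divisible `Pic⁰`, killing the divisors of chart elements with nonzero reduction forces
killing all degree-zero divisors. -/
theorem map_eq_zero_of_chart (hdiv : PicDivisible L S) {x : S} {d : ℕ}
    (h : GoodModel π S.val.toRingHom x d) (δ : Divisor L S →+ Divisor k T)
    (hδ : ∀ f ∈ chart A x, redF π S.val.toRingHom f ≠ 0 → δ (FF.divOf L f) = 0)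
    {D : Divisor L S} (hD : Divisor.degree D = 0) : δ D = 0 := by
  refine map_eq_zero_of_picDivisible hdiv δ (fun E hE => ?_) hD
  have hle : AddSubgroup.closure ((fun f => FF.divOf L f) ''
      {f : S | f ∈ chart A x ∧ redF π S.val.toRingHom f ≠ 0}) ≤ δ.ker :=
    (AddSubgroup.closure_le _).mpr (by rintro _ ⟨f, ⟨h1, h2⟩, rfl⟩; exact hδ f h1 h2)
  exact hle (principal_le_closure_chart h hE)

/-- A symmetry acting on the chart as `g` does on reductions commutes with reduction. -/
theorem mapDomain_smul_chart (hr : IsSeriesReduction A π S T r) (hdiv : PicDivisible L S)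
    {x : S} {d : ℕ} (h : GoodModel π S.val.toRingHom x d)
    {s : SemilinearAut L S} {g : SemilinearAut k T}
    (hsg : ∀ f ∈ chart A x, ∀ z : T, (z : LaurentSeries k) = redF π S.val.toRingHom f →
      ∃ y' : LaurentSeries A, ((s • f : S) : LaurentSeries L) = coeffMap A.subtype y' ∧
        ((g • z : T) : LaurentSeries k) = coeffMap π y')
    (hT : ∀ f : S, redF π S.val.toRingHom f ∈ T) {D : Divisor L S} (hD : Divisor.degree D = 0) :
    Finsupp.mapDomain r (s • D) = g • Finsupp.mapDomain r D := by
  let δ : Divisor L S →+ Divisor k T :=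
    (Finsupp.mapDomain.addMonoidHom r).comp (DistribSMul.toAddMonoidHom _ s) -
      (DistribSMul.toAddMonoidHom _ g).comp (Finsupp.mapDomain.addMonoidHom r)
  refine sub_eq_zero.mp (map_eq_zero_of_chart hdiv h δ ?_ hD)
  intro f hf hne
  obtain ⟨y, hy, hyr⟩ := exists_lift_of_int (π := π) (h.toPreModel.int_chart f hf)
  set z : T := ⟨redF π S.val.toRingHom f, hT f⟩
  have hz : z ≠ 0 := fun h0 => hne (congrArg Subtype.val h0)
  obtain ⟨y', h1, h2⟩ := hsg f hf z rfl
  exact sub_eq_zero.mpr (hr.mapDomain_smul_of_lift h1 h2 hz (FF.divOf_apply f)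
    (hr.compat_of_eq hy hyr hz (FF.divOf_apply f)))

/-- A correspondence given on functions by `N`, reducing on the chart to `(g⁻¹ z) ^ ℓ * g (e z)`,
reduces to `g • e + ℓ g⁻¹`. -/
theorem mapDomain_correspondence_chart (hr : IsSeriesReduction A π S T r) (hdiv : PicDivisible L S)
    {x : S} {d : ℕ} (h : GoodModel π S.val.toRingHom x d)
    (hT : ∀ f : S, redF π S.val.toRingHom f ∈ T)
    (η : Divisor L S →+ Divisor L S) (N : S → S) (ℓ : ℕ) (g e : SemilinearAut k T)
    (hη : ∀ (E : Divisor L S) (f : S), f ≠ 0 → (∀ P, E P = P.ord f) → ∀ P, η E P = P.ord (N f))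
    (hN : ∀ f ∈ chart A x, ∀ z : T, (z : LaurentSeries k) = redF π S.val.toRingHom f → z ≠ 0 →
      ∃ y' : LaurentSeries A, ((N f : S) : LaurentSeries L) = coeffMap A.subtype y' ∧
        ((((g⁻¹ • z) ^ ℓ * (g • e • z) : T)) : LaurentSeries k) = coeffMap π y')
    {D : Divisor L S} (hD : Divisor.degree D = 0) :
    Finsupp.mapDomain r (η D) =
      ℓ • (g⁻¹ • Finsupp.mapDomain r D) + g • e • Finsupp.mapDomain r D := by
  let μ := Finsupp.mapDomain.addMonoidHom (M := ℤ) r
  let δ : Divisor L S →+ Divisor k T :=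
    μ.comp η - (ℓ • (DistribSMul.toAddMonoidHom _ g⁻¹).comp μ
      + (DistribSMul.toAddMonoidHom _ g).comp ((DistribSMul.toAddMonoidHom _ e).comp μ))
  refine sub_eq_zero.mp (map_eq_zero_of_chart hdiv h δ ?_ hD)
  intro f hfc hne
  obtain ⟨y, hy, hyr⟩ := exists_lift_of_int (π := π) (h.toPreModel.int_chart f hfc)
  set z : T := ⟨redF π S.val.toRingHom f, hT f⟩
  have hz : z ≠ 0 := fun h0 => hne (congrArg Subtype.val h0)
  have hf : f ≠ 0 := fun h0 => hne (by rw [h0, redF_zero])
  obtain ⟨y', h1, h2⟩ := hN f hfc z rfl hz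
  exact sub_eq_zero.mpr (hr.mapDomain_correspondence_of_lift h1 h2 hz
    (hη _ f hf (FF.divOf_apply f)) (hr.compat_of_eq hy hyr hz (FF.divOf_apply f)))

end IsSeriesReduction

end Fermat.RED
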