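import Fermat.Agent.RED.Model.Torsion

/-!
# Reduction of curves given by fields of Laurent series

`IsSeriesReduction`: a map of places matching divisors of integral expansions with those of their
reductions, surjective and injective on torsion classes of order prime to the residue
characteristic. A normal good model provides one.
-/

set_option autoImplicit false

attribute [local instance 10000] SubalgebraClass.toAlgebra HahnSeries.powerSeriesAlgebra

noncomputable section

open ModularCurve AlgebraicCurve

namespace Fermat.RED

open Model

variable {L : Type*} [Field L] (A : ValuationSubring L)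
variable {k : Type*} [Field k] (π : A →+* k)
variable (S : IntermediateField L (LaurentSeries L)) (T : IntermediateField k (LaurentSeries k))

/-- The divisors of functions with integral expansion and nonzero reduction. -/
def integralDivisors : Set (Divisor L S) :=
  {D | ∃ (y : LaurentSeries A) (hy : coeffMap A.subtype y ∈ S),
    coeffMap π y ∈ T ∧ coeffMap π y ≠ 0 ∧ ∀ P, D P = P.ord (⟨coeffMap A.subtype y, hy⟩ : S)}

/-- `r` is reduction of places of the curve of `S` onto that of `T`: it matches the divisors of
integral expansions with those of their reductions, is surjective, and is injective on divisor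
classes of order prime to the residue characteristic. -/
structure IsSeriesReduction (r : Place L S → Place k T) : Prop where
  /-- Degrees of places are preserved. -/
  deg_eq : ∀ P, (r P).deg = P.deg
  /-- The divisor of an integral expansion goes to that of its nonzero reduction. -/
  compat : ∀ (y : LaurentSeries A) (hy : coeffMap A.subtype y ∈ S) (hyk : coeffMap π y ∈ T),
    coeffMap π y ≠ 0 → ∀ D : Divisor L S,
      (∀ P, D P = P.ord (⟨coeffMap A.subtype y, hy⟩ : S)) →
        ∀ Q, Finsupp.mapDomain r D Q = Q.ord (⟨coeffMap π y, hyk⟩ : T)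
  /-- These divisors generate the principal divisors. -/
  gen : Divisor.principal (K := L) (F := S) ≤ AddSubgroup.closure (integralDivisors A π S T)
  /-- Every place is a reduction. -/
  surjective : Function.Surjective r
  /-- A torsion class of order prime to the residue characteristic with trivial reduction is
  trivial. -/
  torsion : ∀ m : ℕ, (m : k) ≠ 0 → ∀ D : Divisor L S, Divisor.degree D = 0 →
    m • D ∈ Divisor.principal (K := L) (F := S) →
      Finsupp.mapDomain r D ∈ Divisor.principal (K := k) (F := T) →
        D ∈ Divisor.principal (K := L) (F := S)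

variable {A π S T}

/-- A principal divisor is the divisor of a function. -/
theorem exists_eq_divOf {K F : Type*} [Field K] [Field F] [Algebra K F] [IsAlgClosed K]
    [FF.IsFunctionField K F] {D : Divisor K F} (h : D ∈ Divisor.principal (K := K) (F := F)) :
    ∃ f : F, f ≠ 0 ∧ D = FF.divOf K f :=
  let ⟨f, hf, e⟩ := h
  ⟨f, hf, Finsupp.ext fun P => (e P).trans (FF.divOf_apply f P).symm⟩

/-- A normal good model gives a series reduction. -/
theorem isSeriesReduction_of_isReduction [IsAlgClosed L] [IsAlgClosed k] {x : S} {d : ℕ}
    [FF.IsFunctionField L S] [FF.IsFunctionField k (specField π S.val.toRingHom)]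
    (h : GoodModel π S.val.toRingHom x d) (hn : Normal A π S.val.toRingHom x)
    (hn' : Normal A π S.val.toRingHom x⁻¹)
    {r : Place L S → Place k (specField π S.val.toRingHom)}
    (hr : IsReduction A π S.val.toRingHom x r) :
    IsSeriesReduction A π S (specField π S.val.toRingHom) r := by
  refine ⟨fun P => by rw [FF.deg_eq_one, FF.deg_eq_one], fun y hy hyk hne D hD Q => ?_, ?_,
    h.surjective_of_isReduction hn hn' hr, fun m hm D hD hmD hred => ?_⟩
  · set f : S := ⟨coeffMap A.subtype y, hy⟩
    have hf : S.val.toRingHom f ∈ intSeries A := ⟨y, rfl⟩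
    have hred : redS π S.val.toRingHom f = ⟨coeffMap π y, hyk⟩ :=
      Subtype.ext ((coe_redS _ _ f).trans ((redF_of_mem hf).trans (redHom_coeffMap π y hf)))
    have hne' : redS π S.val.toRingHom f ≠ 0 := fun h0 => hne (by
      have h1 := congrArg Subtype.val h0
      rwa [hred] at h1)
    rw [show D = FF.divOf L f from Finsupp.ext fun P => (hD P).trans (FF.divOf_apply f P).symm,
      h.mapDomain_divOf hn hn' hr hf hne', FF.divOf_apply, hred]
  · intro D hD
    obtain ⟨f, hf, rfl⟩ := exists_eq_divOf hD
    obtain ⟨g, u, hg, hu, hg0, hu0, e⟩ := h.exists_divOf_eq hf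
    have hmem : ∀ z : S, S.val.toRingHom z ∈ intSeries A → redS π S.val.toRingHom z ≠ 0 →
        FF.divOf L z ∈ integralDivisors A π S (specField π S.val.toRingHom) := by
      intro z hz hz0
      obtain ⟨y, hy⟩ := id hz
      have hy' : coeffMap A.subtype y = (z : LaurentSeries L) := hy
      have hr : redF π S.val.toRingHom z = coeffMap π y := by
        rw [redF_of_mem hz, ← redHom_coeffMap π y ⟨y, rfl⟩]
        exact congrArg _ (Subtype.ext hy'.symm)
      refine ⟨y, hy'.symm ▸ z.2, hr ▸ redF_mem_specField π _ z, ?_, fun P => ?_⟩
      · exact fun h0 => hz0 (Subtype.ext (hr.trans h0))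
      · rw [FF.divOf_apply]
        exact congrArg P.ord (Subtype.ext hy'.symm)
    rw [e]
    exact AddSubgroup.sub_mem _ (AddSubgroup.subset_closure (hmem g hg hg0))
      (AddSubgroup.subset_closure (hmem u hu hu0))
  · obtain ⟨f, hf, e⟩ := h.isPrincipal_of_torsion hn hn' hr hm hD (exists_eq_divOf hmD)
      (exists_eq_divOf hred)
    exact ⟨f, hf, fun P => by rw [e, FF.divOf_apply]⟩

/-- A good model normal on both charts, with reduced field `T`, has a series reduction. -/
theorem exists_seriesReduction [IsAlgClosed L] [IsAlgClosed k] {x : S} {d : ℕ}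
    (h : GoodModel π S.val.toRingHom x d) (hn : Normal A π S.val.toRingHom x)
    (hn' : Normal A π S.val.toRingHom x⁻¹) (hT : specField π S.val.toRingHom = T) :
    ∃ r, IsSeriesReduction A π S T r := by
  subst hT
  have := h.toPreModel.isFunctionField
  have := h.toPreModel.isFunctionField_spec
  obtain ⟨r, hr⟩ := h.exists_isReduction hn hn'
  exact ⟨r, isSeriesReduction_of_isReduction h hn hn' hr⟩

namespace IsSeriesReduction

variable {r r' : Place L S → Place k T}

/-- Reduction preserves the degree of divisors. -/
theorem degree_mapDomain (hr : IsSeriesReduction A π S T r) (D : Divisor L S) :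
    Divisor.degree (Finsupp.mapDomain r D) = Divisor.degree D := by
  induction D using Finsupp.induction with
  | zero => simp
  | single_add P n D _ _ ih =>
    rw [Finsupp.mapDomain_add, map_add, map_add, ih, Finsupp.mapDomain_single,
      Divisor.degree_single, Divisor.degree_single, hr.deg_eq]

/-- A homomorphism on divisors killing the integral divisors kills the principal ones. -/
theorem map_eq_zero_of_principal (hr : IsSeriesReduction A π S T r) {G : Type*} [AddCommGroup G]
    (δ : Divisor L S →+ G) (h : ∀ D ∈ integralDivisors A π S T, δ D = 0) {D : Divisor L S}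
    (hD : D ∈ Divisor.principal (K := L) (F := S)) : δ D = 0 :=
  show D ∈ δ.ker from AddSubgroup.closure_le _ |>.mpr (fun E hE => h E hE) (hr.gen hD)

/-- Reduction sends principal divisors to principal divisors. -/
theorem mapDomain_mem_principal (hr : IsSeriesReduction A π S T r) {D : Divisor L S}
    (hD : D ∈ Divisor.principal (K := L) (F := S)) :
    Finsupp.mapDomain r D ∈ Divisor.principal (K := k) (F := T) := by
  refine (AddSubgroup.closure_le ((Divisor.principal (K := k) (F := T)).comap
    (Finsupp.mapDomain.addMonoidHom r))).mpr ?_ (hr.gen hD)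
  rintro E ⟨y, hy, hyk, hne, hE⟩
  exact ⟨⟨coeffMap π y, hyk⟩, fun h0 => hne (congrArg Subtype.val h0),
    fun Q => hr.compat y hy hyk hne E hE Q⟩

/-- Two maps compatible with the integral divisors agree on torsion classes. -/
theorem mapDomain_eq_of_torsion (hr : IsSeriesReduction A π S T r)
    (hr' : ∀ (y : LaurentSeries A) (hy : coeffMap A.subtype y ∈ S) (hyk : coeffMap π y ∈ T),
      coeffMap π y ≠ 0 → ∀ D : Divisor L S,
        (∀ P, D P = P.ord (⟨coeffMap A.subtype y, hy⟩ : S)) →
          ∀ Q, Finsupp.mapDomain r' D Q = Q.ord (⟨coeffMap π y, hyk⟩ : T))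
    {m : ℕ} (hm : m ≠ 0) {D : Divisor L S} (hD : m • D ∈ Divisor.principal (K := L) (F := S)) :
    Finsupp.mapDomain r' D = Finsupp.mapDomain r D := by
  let δ : Divisor L S →+ Divisor k T :=
    Finsupp.mapDomain.addMonoidHom r' - Finsupp.mapDomain.addMonoidHom r
  have h0 : δ (m • D) = 0 := hr.map_eq_zero_of_principal δ (by
    rintro E ⟨y, hy, hyk, hne, hE⟩
    exact sub_eq_zero.mpr (Finsupp.ext fun Q =>
      (hr' y hy hyk hne E hE Q).trans (hr.compat y hy hyk hne E hE Q).symm)) hD
  rw [map_nsmul] at h0
  refine sub_eq_zero.mp (Finsupp.ext fun Q => ?_)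
  have h1 := congrArg (fun E : Divisor k T => E Q) h0
  simp only [Finsupp.smul_apply, Finsupp.zero_apply, nsmul_eq_mul, mul_eq_zero] at h1
  exact h1.resolve_left (Int.natCast_ne_zero.mpr hm)

end IsSeriesReduction

end Fermat.RED
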